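/-
S44, insurance route "DEPTH" (architect helper219).  ABSTRACT DEFINITIONS.

Everything lives inside one field `F` (the function field of `X₀(4 M' p)` over a finite totally
ramified extension `K` of the inertia field), in the one-field language of `S18/Defs.lean`
(`IsUnif`) and `S36/BP/Defs.lean` (`RUnit`, `rad`, `Through`, `HorDiv`, `IsPt`).

* `A`, `ϖ`       : the valuation ring of `K` and a uniformiser.
* `Vi`, `V0`     : the two vertical valuations (components `C_∞`, `C_0`), both with uniformiser `ϖ`.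
* `x`, `y`       : `x y = c₀`, `v(c₀) = e`; `x` is a unit on `C_∞`, `y` is a unit on `C_0`.
* `Smi Sm0 Nd`   : the local rings of the closed points of the special fibre: smooth points on
                   `C_∞`, smooth points on `C_0`, nodes (local equation `x y = c₀`).
* `Dp V ϖ n z`   : `z ∈ ϖ ^ n V` ("depth `≥ n`").

Imports Mathlib, `S18/Defs.lean`, `S36/BP/Defs.lean` only.
-/
import Mathlib
import Fermat.Agent.S18.Defs
import Fermat.Agent.S36.BP.Defs

set_option autoImplicit false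

noncomputable section

namespace Fermat.Agent.S44.Depth

open Fermat.Agent.S18 Fermat.Agent.S36.BP

variable {K F : Type*} [Field K] [Field F] [Algebra K F]

/-- `z ∈ ϖ ^ n V`. -/
def Dp (V : ValuationSubring F) (ϖ : F) (n : ℕ) (z : F) : Prop := z / ϖ ^ n ∈ V

/-- `W` is a (nontrivial) horizontal valuation ring through the point `R`. -/
def Hor (K : Type*) [Field K] [Algebra K F] (R : Subring F) (W : ValuationSubring F) : Prop :=
  (∀ a : K, algebraMap K F a ∈ W) ∧ (∀ r ∈ R, r ∈ W) ∧ W ≠ ⊤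

/-- `A[x, y] ⊆ F`. -/
def Axy (A : ValuationSubring K) (x y : F) : Subring F :=
  Subring.closure ((fun a : K => algebraMap K F a) '' (A : Set K) ∪ {x, y})

/-- `R` is the local ring of a smooth point of the special fibre, lying on the component `V`. -/
structure IsSm (A : ValuationSubring K) (ϖ : K) (V : ValuationSubring F) (R : Subring F) :
    Prop where
  isPt : IsPt A R
  thr : Through R V
  /-- `R ∩ ϖ V = ϖ R` -/
  qep : ∀ z : F, algebraMap K F ϖ * z ∈ R → z ∈ V → z ∈ R

/-- `R` is the local ring of a node `x y = c₀` of the special fibre. -/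
structure IsNode (A : ValuationSubring K) (ϖ : K) (Vi V0 : ValuationSubring F) (x y : F)
    (R : Subring F) : Prop where
  isPt : IsPt A R
  thri : Through R Vi
  thr0 : Through R V0
  x_rad : x ∈ rad R
  y_rad : y ∈ rad R
  /-- `x` is a uniformiser of the branch `C_∞` at the node -/
  dvri : ∀ r ∈ rad R, ∃ s ∈ R, Vi.valuation (r - s * x) < 1
  /-- `y` is a uniformiser of the branch `C_0` at the node -/
  dvr0 : ∀ r ∈ rad R, ∃ s ∈ R, V0.valuation (r - s * y) < 1
  /-- `R ∩ ϖ Vi ∩ ϖ V0 = ϖ R` -/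
  qep : ∀ z : F, algebraMap K F ϖ * z ∈ R → z ∈ Vi → z ∈ V0 → z ∈ R
  /-- for every horizontal prime `𝔭 = R ∩ 𝔪_W`, the ring `R / 𝔭` is a finite `A`-module
  (`A` is henselian) -/
  fin : ∀ W : ValuationSubring F, Hor K R W → ∃ S : Finset F, (∀ s ∈ S, s ∈ R) ∧
    ∀ r ∈ R, ∃ c : F → K, (∀ s, c s ∈ A) ∧
      W.valuation (r - ∑ s ∈ S, algebraMap K F (c s) * s) < 1

/-- **The abstract nodal model** (two components crossing at the nodes `x y = c₀`, `v(c₀) = e`). -/
structure NodalModel (A : ValuationSubring K) (ϖ : K) (e : ℕ) (Vi V0 : ValuationSubring F)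
    (x y : F) (Smi Sm0 Nd : Set (Subring F)) : Prop where
  unifA : IsUnif A ϖ
  unifi : IsUnif Vi (algebraMap K F ϖ)
  unif0 : IsUnif V0 (algebraMap K F ϖ)
  consti : ∀ a ∈ A, algebraMap K F a ∈ Vi
  const0 : ∀ a ∈ A, algebraMap K F a ∈ V0
  e_pos : 0 < e
  xy : ∃ c₀ : K, A.valuation c₀ = A.valuation ϖ ^ e ∧ x * y = algebraMap K F c₀
  x_i : Vi.valuation x = 1
  y_0 : V0.valuation y = 1
  smi : ∀ R ∈ Smi, IsSm A ϖ Vi R
  sm0 : ∀ R ∈ Sm0, IsSm A ϖ V0 R
  nd : ∀ R ∈ Nd, IsNode A ϖ Vi V0 x y R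
  /-- a function on `C_∞` which is regular at all the closed points is constant -/
  regi : ∀ f ∈ Vi, (∀ R ∈ Smi ∪ Nd, ∃ ρ ∈ R, Vi.valuation (f - ρ) < 1) →
    ∃ a ∈ A, Vi.valuation (f - algebraMap K F a) < 1
  /-- a function on `C_0` which is regular at all the closed points is constant -/
  reg0 : ∀ f ∈ V0, (∀ R ∈ Sm0 ∪ Nd, ∃ ρ ∈ R, V0.valuation (f - ρ) < 1) →
    ∃ a ∈ A, V0.valuation (f - algebraMap K F a) < 1

/-- **A wildly ramified automorphism of depth `c`**: `τ` acts on `F` semilinearly, fixes `x`,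
preserves the model, `τ ϖ = ϖ (1 + δ)` with `v(δ) = c ≥ 1`, and `τ z ≡ z` modulo `ϖ ^ (c + 1)` on
both vertical valuation rings. -/
structure RamAut (A : ValuationSubring K) (ϖ : K) (Vi V0 : ValuationSubring F) (x : F)
    (Pts : Set (Subring F)) (τ : F ≃+* F) (δ : K) (c : ℕ) : Prop where
  c_pos : 1 ≤ c
  map_unif : τ (algebraMap K F ϖ) = algebraMap K F (ϖ * (1 + δ))
  δ_val : A.valuation δ = A.valuation ϖ ^ c
  map_const : ∀ a : K, ∃ a' : K, τ (algebraMap K F a) = algebraMap K F a' ∧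
    A.valuation a' = A.valuation a
  fix_x : τ x = x
  rami : ∀ z ∈ Vi, Dp Vi (algebraMap K F ϖ) (c + 1) (τ z - z)
  ram0 : ∀ z ∈ V0, Dp V0 (algebraMap K F ϖ) (c + 1) (τ z - z)
  pts : ∀ R ∈ Pts, ∀ r ∈ R, τ r ∈ R

/-- The local shape of `u` at a node: `u = κ x ^ b G ^ n · (unit of R)` with `G` a unit on `C_∞`.
Then `b ≡ ord_s (ū)` modulo `n`, where `ū` is the reduction of `u` on `C_∞`. -/
def NodeShape (K : Type*) [Field K] [Algebra K F] (Vi : ValuationSubring F) (x : F)
    (R : Subring F) (n : ℕ) (u : F) (b : ℤ) : Prop :=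
  ∃ (κ : K) (G : F), κ ≠ 0 ∧ Vi.valuation G = 1 ∧
    RUnit R (u / (algebraMap K F κ * x ^ b * G ^ n))

/-- The local shape of `u` at a smooth point: `u = κ G ^ n · (unit of R)`, `G` a unit of `V`. -/
def SmShape (K : Type*) [Field K] [Algebra K F] (V : ValuationSubring F)
    (R : Subring F) (n : ℕ) (u : F) : Prop :=
  ∃ (κ : K) (G : F), κ ≠ 0 ∧ V.valuation G = 1 ∧ RUnit R (u / (algebraMap K F κ * G ^ n))

end Fermat.Agent.S44.Depth

end
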