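/-
S44 / DEPTH (architect helper219): base change of the nodal model along a totally ramified
(Eisenstein) extension `K / K₀` of the base field.  DEFINITIONS.

`F₀` = function field over `K₀`, `F = F₀ · K` = function field over `K`, `F = ⊕_{i<e} F₀ ϖ^i`.
-/
import Fermat.Agent.S44.Depth.Defs

set_option autoImplicit false

noncomputable section

namespace Fermat.Agent.S44.Depth

open Fermat.Agent.S18 Fermat.Agent.S36.BP

/-- `∑_{i<e} c_i ϖ^i`. -/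
def esum {E₀ E : Type*} [Field E₀] [Field E] [Algebra E₀ E] (ϖ : E) (e : ℕ) (c : ℕ → E₀) : E :=
  ∑ i ∈ Finset.range e, algebraMap E₀ E (c i) * ϖ ^ i

/-- `ϖ` is a root of the Eisenstein polynomial `X^e - ∑_{i<e} a_i X^i` over the discrete valuation
ring `V₀` (uniformiser `ϖ₀`) of `E₀`, and `1, ϖ, …, ϖ^(e-1)` span `E` over `E₀`. -/
structure IsEis {E₀ E : Type*} [Field E₀] [Field E] [Algebra E₀ E] (V₀ : ValuationSubring E₀)
    (ϖ₀ : E₀) (ϖ : E) (e : ℕ) (a : ℕ → E₀) : Prop where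
  e_pos : 0 < e
  a_mem : ∀ i, a i / ϖ₀ ∈ V₀
  a_zero : V₀.valuation (a 0 / ϖ₀) = 1
  eis : ϖ ^ e = esum ϖ e a
  span : ∀ z : E, ∃ c : ℕ → E₀, z = esum ϖ e c

/-- `V` extends `V₀`. -/
def Ext {E₀ E : Type*} [Field E₀] [Field E] [Algebra E₀ E] (V₀ : ValuationSubring E₀)
    (V : ValuationSubring E) : Prop := ∀ z : E₀, algebraMap E₀ E z ∈ V ↔ z ∈ V₀

/-- `R₀[ϖ] ⊆ E`. -/
def liftR {E₀ E : Type*} [Field E₀] [Field E] [Algebra E₀ E] (ϖ : E) (R₀ : Subring E₀) :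
    Subring E :=
  Subring.closure ((fun z : E₀ => algebraMap E₀ E z) '' (R₀ : Set E₀) ∪ {ϖ})

variable {K₀ K F₀ F : Type*} [Field K₀] [Field K] [Field F₀] [Field F]
  [Algebra K₀ K] [Algebra K₀ F₀] [Algebra K F] [Algebra F₀ F]

/-- **The base change datum.** -/
structure BCData (A₀ : ValuationSubring K₀) (ϖ₀ : K₀) (A : ValuationSubring K) (ϖ : K) (e : ℕ)
    (a : ℕ → K₀) (F₀ F : Type*) [Field F₀] [Field F] [Algebra K₀ F₀] [Algebra K F]
    [Algebra F₀ F] : Prop where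
  compat : ∀ c : K₀, algebraMap K F (algebraMap K₀ K c) = algebraMap F₀ F (algebraMap K₀ F₀ c)
  unif₀ : IsUnif A₀ ϖ₀
  eisK : IsEis A₀ ϖ₀ ϖ e a
  extA : Ext A₀ A
  spanF : ∀ z : F, ∃ c : ℕ → F₀, z = esum (algebraMap K F ϖ) e c

end Fermat.Agent.S44.Depth

end
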