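/-
S44 / DEPTH (architect helper219): the shape of the conclusions of the abstract main theorem.
-/
import Fermat.Agent.S44.Depth.BCDefs

set_option autoImplicit false

noncomputable section

namespace Fermat.Agent.S44.Depth

open Fermat.Agent.S18 Fermat.Agent.S36.BP

variable {F₀ F : Type*} [Field F₀] [Field F] [Algebra F₀ F]

/-- The conclusion at a node, read on `F₀` after reduction:
`u / κ ≡ x₀ ^ b G₀ ^ p r₀` modulo the maximal ideal of `Vi`. -/
def RedNode (K : Type*) [Field K] [Algebra K F] (Vi₀ : ValuationSubring F₀)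
    (Vi : ValuationSubring F) (x₀ : F₀) (R₀ : Subring F₀) (n : ℕ) (u : F) (b : ℤ) : Prop :=
  ∃ (κ : K) (G₀ r₀ : F₀), κ ≠ 0 ∧ Vi₀.valuation G₀ = 1 ∧ RUnit R₀ r₀ ∧
    Vi.valuation (u / algebraMap K F κ - algebraMap F₀ F (x₀ ^ b * G₀ ^ n * r₀)) < 1

/-- The conclusion at a smooth point, read on `F₀` after reduction. -/
def RedSm (K : Type*) [Field K] [Algebra K F] (V₀ : ValuationSubring F₀)
    (V : ValuationSubring F) (R₀ : Subring F₀) (n : ℕ) (u : F) : Prop :=
  ∃ (κ : K) (G₀ r₀ : F₀), κ ≠ 0 ∧ V₀.valuation G₀ = 1 ∧ RUnit R₀ r₀ ∧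
    V.valuation (u / algebraMap K F κ - algebraMap F₀ F (G₀ ^ n * r₀)) < 1

end Fermat.Agent.S44.Depth

end
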